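import Mathlib.GroupTheory.Index
import Mathlib.RingTheory.RootsOfUnity.AlgebraicallyClosed
import Mathlib.NumberTheory.ArithmeticFunction.Misc
import Mathlib.Analysis.Complex.Polynomial.Basic

/-!
# Irredundant covers by zero sets of factors `1 - a` and `1 + a + ⋯ + a ^ (p - 1)`

Let `e i` be characters of a finite abelian group and `Z i` be `e i = 1` when `p i = 1` and
`e i ^ p i = 1 ≠ e i` when `p i` is prime. If `k` of these sets cover a coset of `N` irredundantly, the common kernel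
has index in `N` with fewer than `k` prime factors: some coset of a subgroup of prime index avoids one set, and the
periodicity of the sets used so far leaves whole cosets to the others.
-/

set_option autoImplicit false
set_option linter.unusedSectionVars false

noncomputable section

open Finset
open scoped Classical ArithmeticFunction.Omega

namespace FA.Hajos

variable {X : Type*} [CommGroup X] [Finite X] {ι : Type*} (e : ι → X →* ℂˣ) (p : ι → ℕ)

/-- The zero set of the `i`-th factor. -/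
def zeroSet (i : ι) : Set X := {χ | e i χ ^ p i = 1 ∧ (p i = 1 ∨ e i χ ≠ 1)}

/-- The common kernel. -/
def kerInf (S : Finset ι) : Subgroup X := ⨅ i ∈ S, (e i).ker

theorem mem_kerInf {S : Finset ι} {χ : X} : χ ∈ kerInf e S ↔ ∀ i ∈ S, e i χ = 1 := by
  simp [kerInf, Subgroup.mem_iInf, MonoidHom.mem_ker]

/-- A subgroup seen through a character of prime order on it. -/
theorem map_eq_rootsOfUnity (f : X →* ℂˣ) (N : Subgroup X) {q : ℕ} (hq : q.Prime) (h : ∀ n ∈ N, f n ^ q = 1)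
    (h1 : ∃ n ∈ N, f n ≠ 1) : N.map f = rootsOfUnity q ℂ ∧ (f.ker ⊓ N).relIndex N = q := by
  have : NeZero q := ⟨hq.ne_zero⟩
  have hle : N.map f ≤ rootsOfUnity q ℂ := by
    rintro _ ⟨n, hn, rfl⟩
    exact h n hn
  have : Finite (N.map f) :=
    Finite.of_injective (Subgroup.inclusion hle) (Subgroup.inclusion_injective hle)
  have hq' : Nat.card (rootsOfUnity q ℂ) = q := HasEnoughRootsOfUnity.natCard_rootsOfUnity ℂ q
  have hcard : Nat.card (N.map f) = q := by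
    refine (hq.eq_one_or_self_of_dvd _ (hq' ▸ Subgroup.card_dvd_of_le hle)).resolve_left fun h' => ?_
    obtain ⟨n, hn, hne⟩ := h1
    exact hne (Subgroup.mem_bot.mp (Subgroup.card_eq_one.mp h' ▸ Subgroup.mem_map_of_mem f hn))
  refine ⟨?_, by rw [Subgroup.inf_relIndex_right, Subgroup.relIndex_ker, hcard]⟩
  exact Subgroup.eq_of_le_of_card_ge hle (by rw [hcard, hq'])

/-- **A coset of a subgroup of prime index avoids a nontrivial zero set.** -/
theorem exists_avoid (hp : ∀ i, p i = 1 ∨ (p i).Prime) (i : ι) (N : Subgroup X) (x : X)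
    (hnt : ∃ n ∈ N, e i n ≠ 1) :
    ∃ (M : Subgroup X) (y : X), M ≤ N ∧ (M.relIndex N).Prime ∧ x⁻¹ * y ∈ N ∧
      ∀ χ, y⁻¹ * χ ∈ M → χ ∉ zeroSet e p i := by
  by_cases hb : ∃ n ∈ N, (e i n) ^ p i ≠ 1
  · have hex : ∃ o : ℕ, 0 < o ∧ ∀ n ∈ N, ((e i n) ^ p i) ^ o = 1 :=
      ⟨Nat.card X, Nat.card_pos, fun n _ => by rw [← map_pow, ← map_pow, ← pow_mul, mul_comm, pow_mul, pow_card_eq_one',
        one_pow, map_one]⟩
    obtain ⟨ho0, ho⟩ := Nat.find_spec hex
    set o := Nat.find hex with hodef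
    have ho1 : o ≠ 1 := fun e1 => by
      obtain ⟨n, hn, hne⟩ := hb
      have := ho n hn
      rw [e1, pow_one] at this
      exact hne this
    obtain ⟨q, hq, hqo⟩ := Nat.exists_prime_and_dvd ho1
    obtain ⟨m, hm⟩ := hqo
    have hm0 : 0 < m := Nat.pos_of_ne_zero fun e0 => by rw [e0, mul_zero] at hm; omega
    have hmlt : m < o := by rw [hm]; exact lt_mul_left hm0 hq.one_lt
    set f : X →* ℂˣ := (e i) ^ (p i * m)
    have hf : ∀ χ, f χ = ((e i χ) ^ p i) ^ m := fun χ => by rw [MonoidHom.pow_apply, pow_mul]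
    obtain ⟨n₁, hn₁, hne₁⟩ : ∃ n ∈ N, f n ≠ 1 := by
      by_contra hcon
      push Not at hcon
      exact Nat.find_min hex hmlt ⟨hm0, fun n hn => hf n ▸ hcon n hn⟩
    have hfq : ∀ n ∈ N, f n ^ q = 1 := fun n hn => by rw [hf, ← pow_mul, mul_comm, ← hm, ho n hn]
    obtain ⟨y, hy, hyne⟩ : ∃ y, x⁻¹ * y ∈ N ∧ f y ≠ 1 := by
      by_cases hx : f x = 1
      · exact ⟨x * n₁, by rwa [inv_mul_cancel_left], by rwa [map_mul, hx, one_mul]⟩
      · exact ⟨x, by rw [inv_mul_cancel]; exact N.one_mem, hx⟩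
    refine ⟨f.ker ⊓ N, y, inf_le_right, ?_, hy, fun χ hχ hz => hyne ?_⟩
    · rw [(map_eq_rootsOfUnity f N hq hfq ⟨n₁, hn₁, hne₁⟩).2]
      exact hq
    · have h1 : f χ = 1 := by rw [hf, hz.1, one_pow]
      have h2 : f (y⁻¹ * χ) = 1 := (Subgroup.mem_inf.mp hχ).1
      rw [map_mul, map_inv, h1, mul_one, inv_eq_one] at h2
      exact h2
  · push Not at hb
    have hq : (p i).Prime := (hp i).resolve_left fun h1 => by
      obtain ⟨n, hn, hne⟩ := hnt
      have := hb n hn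
      rw [h1, pow_one] at this
      exact hne this
    obtain ⟨hmap, hidx⟩ := map_eq_rootsOfUnity (e i) N hq hb hnt
    refine (?_ : ∃ y : X, x⁻¹ * y ∈ N ∧ (e i y ^ p i ≠ 1 ∨ e i y = 1)).elim fun y hy =>
      ⟨(e i).ker ⊓ N, y, inf_le_right, hidx ▸ hq, hy.1, fun χ hχ hz => ?_⟩
    · by_cases hx : e i x ^ p i = 1
      · have hmem : (e i x)⁻¹ ∈ rootsOfUnity (p i) ℂ := by
          rw [mem_rootsOfUnity, inv_pow, hx, inv_one]
        rw [← hmap] at hmem
        obtain ⟨n, hn, hne⟩ := hmem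
        exact ⟨x * n, by rwa [inv_mul_cancel_left], Or.inr (by rw [map_mul, hne, mul_inv_cancel])⟩
      · exact ⟨x, by rw [inv_mul_cancel]; exact N.one_mem, Or.inl hx⟩
    · have h2 : e i (y⁻¹ * χ) = 1 := (Subgroup.mem_inf.mp hχ).1
      rw [map_mul, map_inv, inv_mul_eq_one] at h2
      rcases hy.2 with h | h
      · exact h (h2 ▸ hz.1)
      · exact (hz.2.resolve_left hq.ne_one) (h2 ▸ h)

/-- An irredundant subcover. -/
theorem exists_irredundant {C : Set X} {S : Finset ι} (h : ∀ χ ∈ C, ∃ i ∈ S, χ ∈ zeroSet e p i) :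
    ∃ T ⊆ S, (∀ χ ∈ C, ∃ i ∈ T, χ ∈ zeroSet e p i) ∧
      ∀ i ∈ T, ∃ χ ∈ C, χ ∈ zeroSet e p i ∧ ∀ j ∈ T, j ≠ i → χ ∉ zeroSet e p j := by
  induction S using Finset.strongInduction with
  | _ S ih =>
  by_cases hirr : ∀ i ∈ S, ∃ χ ∈ C, χ ∈ zeroSet e p i ∧ ∀ j ∈ S, j ≠ i → χ ∉ zeroSet e p j
  · exact ⟨S, subset_rfl, h, hirr⟩
  · push Not at hirr
    obtain ⟨i, hi, hall⟩ := hirr
    obtain ⟨T, hT, h1, h2⟩ := ih (S.erase i) (erase_ssubset hi) fun χ hχ => by
      obtain ⟨j, hj, hjz⟩ := h χ hχ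
      rcases eq_or_ne j i with rfl | hne
      · obtain ⟨k, hk, hki, hkz⟩ := hall χ hχ hjz
        exact ⟨k, mem_erase.mpr ⟨hki, hk⟩, hkz⟩
      · exact ⟨j, mem_erase.mpr ⟨hne, hj⟩, hjz⟩
    exact ⟨T, hT.trans (erase_subset _ _), h1, h2⟩

theorem mem_zeroSet_mul {i : ι} {χ l : X} (hl : e i l = 1) : χ * l ∈ zeroSet e p i ↔ χ ∈ zeroSet e p i := by
  simp only [zeroSet, Set.mem_ofPred_eq, map_mul, hl, mul_one]

theorem relIndex_ne_zero (H K : Subgroup X) : H.relIndex K ≠ 0 :=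
  Subgroup.index_ne_zero_of_finite (H := H.subgroupOf K)

theorem omega_relIndex {H K L : Subgroup X} (hHK : H ≤ K) (hKL : K ≤ L) :
    Ω (H.relIndex L) = Ω (H.relIndex K) + Ω (K.relIndex L) := by
  rw [← Subgroup.relIndex_mul_relIndex H K L hHK hKL,
    ArithmeticFunction.cardFactors_mul (relIndex_ne_zero _ _) (relIndex_ne_zero _ _)]

theorem omega_le_of_dvd {m n : ℕ} (h : m ∣ n) (hn : n ≠ 0) : Ω m ≤ Ω n := by
  obtain ⟨c, rfl⟩ := h
  rw [ArithmeticFunction.cardFactors_mul (left_ne_zero_of_mul hn) (right_ne_zero_of_mul hn)]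
  exact Nat.le_add_right _ _

/-- **The index bound.** -/
theorem omega_index_lt (hp : ∀ i, p i = 1 ∨ (p i).Prime) (N : Subgroup X) (x : X) (S : Finset ι)
    (hcov : ∀ χ, x⁻¹ * χ ∈ N → ∃ i ∈ S, χ ∈ zeroSet e p i)
    (hirr : ∀ i ∈ S, ∃ χ, x⁻¹ * χ ∈ N ∧ χ ∈ zeroSet e p i ∧ ∀ j ∈ S, j ≠ i → χ ∉ zeroSet e p j) :
    Ω ((kerInf e S).relIndex N) + 1 ≤ S.card := by
  induction hn : Nat.card N using Nat.strong_induction_on generalizing N x S with
  | _ n ih =>
  subst hn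
  obtain ⟨i₀, hi₀, -⟩ := hcov x (by rw [inv_mul_cancel]; exact N.one_mem)
  by_cases htriv : N ≤ kerInf e S
  · rw [Subgroup.relIndex_eq_one.mpr htriv, ArithmeticFunction.cardFactors_one]
    exact card_pos.mpr ⟨i₀, hi₀⟩
  obtain ⟨i, hi, n₀, hn₀, hne₀⟩ : ∃ i ∈ S, ∃ n ∈ N, e i n ≠ 1 := by
    by_contra hcon
    push Not at hcon
    exact htriv fun n hn => (mem_kerInf e).mpr fun i hi => hcon i hi n hn
  obtain ⟨M, y, hMN, hprime, hy, hav⟩ := exists_avoid e p hp i N x ⟨n₀, hn₀, hne₀⟩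
  have hMlt : Nat.card M < Nat.card N := by
    refine lt_of_le_of_ne (Subgroup.card_le_of_le hMN) fun hc => hprime.ne_one ?_
    rw [Subgroup.eq_of_le_of_card_ge hMN hc.ge, Subgroup.relIndex_self]
  -- the first round
  obtain ⟨T, hTS, hTcov, hTirr⟩ := exists_irredundant e p (C := {χ | y⁻¹ * χ ∈ M}) (S := S.erase i) fun χ hχ => by
    have hmem : x⁻¹ * χ ∈ N := by
      rw [show x⁻¹ * χ = (x⁻¹ * y) * (y⁻¹ * χ) by group]
      exact N.mul_mem hy (hMN hχ)
    obtain ⟨j, hj, hjz⟩ := hcov χ hmem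
    exact ⟨j, mem_erase.mpr ⟨fun e' => hav χ hχ (e' ▸ hjz), hj⟩, hjz⟩
  have hTb := ih _ hMlt M y T hTcov hTirr rfl
  have hTsub : T ⊂ S := lt_of_le_of_lt hTS (erase_ssubset hi)
  -- the further rounds
  suffices key : ∀ J : Finset ι, ∀ L : Subgroup X, J ⊂ S → L ≤ kerInf e J → L ≤ N → Nat.card L < Nat.card N →
      Ω (L.relIndex N) ≤ J.card → Ω ((kerInf e S).relIndex N) + 1 ≤ S.card by
    refine key T (kerInf e T ⊓ M) hTsub inf_le_left (inf_le_right.trans hMN)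
      ((Subgroup.card_le_of_le inf_le_right).trans_lt hMlt) ?_
    rw [omega_relIndex inf_le_right hMN, Subgroup.inf_relIndex_right, ArithmeticFunction.cardFactors_apply_prime hprime]
    exact hTb
  intro J
  induction hJ : (S \ J).card using Nat.strong_induction_on generalizing J with
  | _ d ihJ =>
  intro L hJS hLJ hLN hLlt hLb
  subst hJ
  obtain ⟨a, haS, haJ⟩ := exists_of_ssubset hJS
  obtain ⟨χ₀, hχ₀, -, hothers⟩ := hirr a haS
  have hmiss : ∀ χ, χ₀⁻¹ * χ ∈ L → ∀ j ∈ J, χ ∉ zeroSet e p j := fun χ hχ j hj hz => by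
    refine hothers j (hJS.subset hj) (fun e' => haJ (e' ▸ hj)) ?_
    have := (mem_zeroSet_mul e p (χ := χ₀) ((mem_kerInf e).mp (hLJ hχ) j hj)).mp
      (by rwa [mul_inv_cancel_left])
    exact this
  obtain ⟨U, hUS, hUcov, hUirr⟩ := exists_irredundant e p (C := {χ | χ₀⁻¹ * χ ∈ L}) (S := S \ J) fun χ hχ => by
    have hmem : x⁻¹ * χ ∈ N := by
      rw [show x⁻¹ * χ = (x⁻¹ * χ₀) * (χ₀⁻¹ * χ) by group]
      exact N.mul_mem hχ₀ (hLN hχ)
    obtain ⟨j, hj, hjz⟩ := hcov χ hmem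
    exact ⟨j, mem_sdiff.mpr ⟨hj, fun hjJ => hmiss χ hχ j hjJ hjz⟩, hjz⟩
  obtain ⟨u, hu, -⟩ := hUcov χ₀ (by show χ₀⁻¹ * χ₀ ∈ L; rw [inv_mul_cancel]; exact L.one_mem)
  have hUb := ih _ hLlt L χ₀ U hUcov hUirr rfl
  set L' := kerInf e U ⊓ L
  have hL'J : L' ≤ kerInf e (J ∪ U) := fun l hl => (mem_kerInf e).mpr fun j hj => by
    rcases mem_union.mp hj with hj | hj
    · exact (mem_kerInf e).mp (hLJ (Subgroup.mem_inf.mp hl).2) j hj
    · exact (mem_kerInf e).mp (Subgroup.mem_inf.mp hl).1 j hj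
  have hdisj : Disjoint J U := disjoint_right.mpr fun j hj => (mem_sdiff.mp (hUS hj)).2
  have hb : Ω (L'.relIndex N) + 1 ≤ (J ∪ U).card := by
    rw [card_union_of_disjoint hdisj, omega_relIndex inf_le_right hLN, Subgroup.inf_relIndex_right]
    omega
  rcases eq_or_ssubset_of_subset (union_subset hJS.subset (hUS.trans sdiff_subset)) with heq | hss
  · rw [heq] at hL'J hb
    exact le_trans (Nat.add_le_add_right (omega_le_of_dvd (Subgroup.relIndex_dvd_of_le_left N hL'J)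
      (relIndex_ne_zero _ _)) 1) hb
  · refine ihJ _ (card_lt_card ?_) (J ∪ U) rfl L' hss hL'J (inf_le_right.trans hLN)
      ((Subgroup.card_le_of_le inf_le_right).trans_lt hLlt) (Nat.le_of_succ_le hb)
    refine (ssubset_iff_of_subset (sdiff_subset_sdiff subset_rfl subset_union_left)).mpr ⟨u, hUS hu, fun h => ?_⟩
    exact (mem_sdiff.mp h).2 (mem_union_right _ hu)

end FA.Hajos
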