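import Fermat.Agent.Hajos.Cover
import Mathlib.GroupTheory.FiniteAbelian.Duality
import Mathlib.Algebra.MonoidAlgebra.Basic
import Mathlib.RingTheory.IntegralDomain
import Mathlib.Algebra.Ring.GeomSum

/-!
# Szele's lemma

A product in `ℤ[G]` of factors `1 - a` and `1 + a + ⋯ + a ^ (p - 1)` vanishes iff at every character one of the
factors does, so the bound on irredundant covers bounds the group generated by the `a`.
-/

set_option autoImplicit false
set_option linter.unusedSectionVars false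

noncomputable section

open Finset
open scoped Classical ArithmeticFunction.Omega

namespace FA.Hajos

variable {G : Type*} [CommGroup G] [Finite G] {ι : Type*}

/-- Evaluation of characters at `a`. -/
def evChar (a : G) : (G →* ℂˣ) →* ℂˣ where
  toFun χ := χ a
  map_one' := rfl
  map_mul' _ _ := rfl

theorem index_kerInf (a : ι → G) (S : Finset ι) :
    (kerInf (fun i => evChar (a i)) S).index = Nat.card (Subgroup.closure (a '' S)) := by
  set M := Subgroup.closure (a '' (S : Set ι))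
  have heq : kerInf (fun i => evChar (a i)) S = (MonoidHom.domRestrictHom M ℂˣ).ker := by
    ext χ
    rw [mem_kerInf, MonoidHom.mem_ker, MonoidHom.domRestrictHom_apply, MonoidHom.domRestrict_eq_one_iff]
    constructor
    · intro h g hg
      exact (Subgroup.closure_le χ.ker).mpr (by rintro _ ⟨i, hi, rfl⟩; exact h i hi) hg
    · exact fun h i hi => h (a i) (Subgroup.subset_closure (Set.mem_image_of_mem a hi))
  rw [heq, Subgroup.index_ker, MonoidHom.range_eq_top.mpr (MonoidHom.domRestrict_surjective ℂ M), Subgroup.card_top,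
    CommGroup.card_monoidHom_of_hasEnoughRootsOfUnity]

/-- **Covers of the dual group.** -/
theorem omega_closure_lt {a : ι → G} {p : ι → ℕ} (hp : ∀ i, p i = 1 ∨ (p i).Prime) {S : Finset ι}
    (hcov : ∀ χ : G →* ℂˣ, ∃ i ∈ S, χ ∈ zeroSet (fun i => evChar (a i)) p i)
    (hirr : ∀ i ∈ S, ∃ χ : G →* ℂˣ, χ ∈ zeroSet (fun i => evChar (a i)) p i ∧
      ∀ j ∈ S, j ≠ i → χ ∉ zeroSet (fun i => evChar (a i)) p j) :
    Ω (Nat.card (Subgroup.closure (a '' (S : Set ι)))) + 1 ≤ S.card := by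
  have h := omega_index_lt (fun i => evChar (a i)) p hp (⊤ : Subgroup (G →* ℂˣ)) 1 S (fun χ _ => hcov χ)
    (fun i hi => by
      obtain ⟨χ, h⟩ := hirr i hi
      exact ⟨χ, Subgroup.mem_top _, h⟩)
  rwa [Subgroup.relIndex_top_right, index_kerInf] at h

/-- A character on the group ring. -/
def ringChar' (χ : G →* ℂˣ) : MonoidAlgebra ℤ G →+* ℂ :=
  (MonoidAlgebra.lift ℤ ℂ G ((Units.coeHom ℂ).comp χ)).toRingHom

theorem ringChar'_single (χ : G →* ℂˣ) (g : G) (c : ℤ) :
    ringChar' χ (MonoidAlgebra.single g c) = (c : ℂ) * (χ g : ℂ) := by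
  simp [ringChar', MonoidAlgebra.lift_single]

theorem sum_char (g : G) [Fintype (G →* ℂˣ)] :
    ∑ χ : G →* ℂˣ, (χ g : ℂ) = if g = 1 then (Nat.card G : ℂ) else 0 := by
  split_ifs with h
  · subst h
    simp [← Nat.card_eq_fintype_card, CommGroup.card_monoidHom_of_hasEnoughRootsOfUnity]
  · refine sum_hom_units_eq_zero ((Units.coeHom ℂ).comp (evChar g)) fun h1 => h ?_
    refine (CommGroup.forall_apply_eq_apply_iff (M := ℂ) G).mp fun χ => ?_
    rw [map_one]
    exact Units.ext (DFunLike.congr_fun h1 χ)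

/-- Characters separate the group ring. -/
theorem eq_zero_of_ringChar' (x : MonoidAlgebra ℤ G) (h : ∀ χ : G →* ℂˣ, ringChar' χ x = 0) : x = 0 := by
  have := Fintype.ofFinite (G →* ℂˣ)
  refine MonoidAlgebra.ext (Finsupp.ext fun g => ?_)
  have hsum : ∑ χ : G →* ℂˣ, (χ g⁻¹ : ℂ) * ringChar' χ x = 0 := sum_eq_zero fun χ _ => by rw [h χ, mul_zero]
  have hexp : ∀ χ : G →* ℂˣ, (χ g⁻¹ : ℂ) * ringChar' χ x =
      ∑ k ∈ x.coeff.support, (x.coeff k : ℂ) * (χ (g⁻¹ * k) : ℂ) := fun χ => by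
    conv_lhs => rw [← MonoidAlgebra.sum_coeff_single x, Finsupp.sum, map_sum, mul_sum]
    refine sum_congr rfl fun k _ => ?_
    rw [ringChar'_single, map_mul, Units.val_mul]
    ring
  simp only [hexp] at hsum
  rw [sum_comm] at hsum
  simp only [← mul_sum, sum_char, inv_mul_eq_one, mul_ite, mul_zero] at hsum
  rw [Finset.sum_ite_eq] at hsum
  by_contra hne
  rw [if_pos (Finsupp.mem_support_iff.mpr hne)] at hsum
  rcases mul_eq_zero.mp hsum with e | e
  · exact hne (Int.cast_eq_zero.mp e)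
  · exact Nat.card_pos.ne' (Nat.cast_eq_zero.mp e)

/-- `1 - a` when `p = 1`, else `1 + a + ⋯ + a ^ (p - 1)`. -/
def factor (a : G) (p : ℕ) : MonoidAlgebra ℤ G :=
  if p = 1 then 1 - MonoidAlgebra.single a 1 else ∑ k ∈ range p, MonoidAlgebra.single (a ^ k) 1

theorem geom_eq_zero_iff {z : ℂˣ} {p : ℕ} (hp : 2 ≤ p) :
    ∑ k ∈ range p, (z : ℂ) ^ k = 0 ↔ z ^ p = 1 ∧ z ≠ 1 := by
  constructor
  · intro h
    refine ⟨Units.ext ?_, fun e => ?_⟩
    · rw [Units.val_pow_eq_pow_val, Units.val_one, ← sub_eq_zero, ← geom_sum_mul, h, zero_mul]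
    · subst e
      simp at h
      omega
  · rintro ⟨h, h1⟩
    have h2 : (∑ k ∈ range p, (z : ℂ) ^ k) * ((z : ℂ) - 1) = 0 := by
      rw [geom_sum_mul, ← Units.val_pow_eq_pow_val, h, Units.val_one, sub_self]
    exact (mul_eq_zero.mp h2).resolve_right (sub_ne_zero.mpr fun e => h1 (Units.ext e))

theorem ringChar'_factor_eq_zero_iff {a : ι → G} {p : ι → ℕ} (hp : ∀ i, p i = 1 ∨ (p i).Prime) (i : ι)
    (χ : G →* ℂˣ) : ringChar' χ (factor (a i) (p i)) = 0 ↔ χ ∈ zeroSet (fun i => evChar (a i)) p i := by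
  show _ ↔ (χ (a i)) ^ p i = 1 ∧ (p i = 1 ∨ χ (a i) ≠ 1)
  unfold factor
  split_ifs with h
  · rw [h, map_sub, map_one, ringChar'_single, Int.cast_one, one_mul, sub_eq_zero, eq_comm, Units.val_eq_one,
      pow_one]
    simp
  · rw [map_sum]
    simp only [ringChar'_single, Int.cast_one, one_mul, map_pow, Units.val_pow_eq_pow_val]
    rw [geom_eq_zero_iff ((hp i).resolve_left h).two_le]
    simp [h]

/-- **Szele's lemma.** -/
theorem szele {a : ι → G} {p : ι → ℕ} (hp : ∀ i, p i = 1 ∨ (p i).Prime) {S : Finset ι}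
    (h0 : ∏ i ∈ S, factor (a i) (p i) = 0) (hirr : ∀ i ∈ S, ∏ j ∈ S.erase i, factor (a j) (p j) ≠ 0) :
    Ω (Nat.card (Subgroup.closure (a '' (S : Set ι)))) + 1 ≤ S.card := by
  have hcov : ∀ χ : G →* ℂˣ, ∃ i ∈ S, χ ∈ zeroSet (fun i => evChar (a i)) p i := fun χ => by
    have h := congrArg (ringChar' χ) h0
    rw [map_prod, map_zero, prod_eq_zero_iff] at h
    obtain ⟨i, hi, hz⟩ := h
    exact ⟨i, hi, (ringChar'_factor_eq_zero_iff hp i χ).mp hz⟩
  refine omega_closure_lt hp hcov fun i hi => ?_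
  obtain ⟨χ, hχ⟩ : ∃ χ : G →* ℂˣ, ringChar' χ (∏ j ∈ S.erase i, factor (a j) (p j)) ≠ 0 :=
    not_forall.mp fun h => hirr i hi (eq_zero_of_ringChar' _ h)
  rw [map_prod, prod_ne_zero_iff] at hχ
  have hnot : ∀ j ∈ S, j ≠ i → χ ∉ zeroSet (fun i => evChar (a i)) p j := fun j hj hne hz =>
    hχ j (mem_erase.mpr ⟨hne, hj⟩) ((ringChar'_factor_eq_zero_iff hp j χ).mpr hz)
  obtain ⟨k, hk, hkz⟩ := hcov χ
  exact ⟨χ, by_contra fun hn => hnot k hk (fun e => hn (e ▸ hkz)) hkz, hnot⟩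

end FA.Hajos
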