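import Fermat.Agent.Hajos.Szele
import Mathlib.Data.Fintype.Pi

/-!
# Hajós's theorem

For segments of prime length a vanishing factor at every character gives, after one segment has become `1 - g ^ p`,
a proper subfamily of segments which tiles the group it generates. Composite lengths split.
-/

set_option autoImplicit false
set_option linter.unusedSectionVars false

noncomputable section

open Finset
open scoped Classical ArithmeticFunction.Omega

namespace FA.Hajos

variable {G : Type*} [CommGroup G] {ι : Type*} [Fintype ι]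

/-- The exponent vectors supported on `S`. -/
def box (q : ι → ℕ) (S : Finset ι) : Finset (ι → ℕ) :=
  Fintype.piFinset fun i => if i ∈ S then range (q i) else {0}

theorem mem_box {q : ι → ℕ} {S : Finset ι} {k : ι → ℕ} :
    k ∈ box q S ↔ ∀ i, (i ∈ S → k i < q i) ∧ (i ∉ S → k i = 0) := by
  rw [box, Fintype.mem_piFinset]
  refine forall_congr' fun i => ?_
  by_cases h : i ∈ S <;> simp [h]

theorem card_box (q : ι → ℕ) (S : Finset ι) : (box q S).card = ∏ i ∈ S, q i := by
  rw [box, Fintype.card_piFinset, ← Finset.prod_subset (subset_univ S)]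
  · exact prod_congr rfl fun i hi => by rw [if_pos hi, card_range]
  · intro i _ hi
    rw [if_neg hi, card_singleton]

/-- The element of an exponent vector. -/
def word (g : ι → G) (k : ι → ℕ) : G := ∏ i, g i ^ k i

theorem word_single (g : ι → G) (i : ι) (n : ℕ) : word g (Pi.single i n) = g i ^ n := by
  rw [word, Fintype.prod_eq_single i fun j hj => by rw [Pi.single_eq_of_ne hj, pow_zero], Pi.single_eq_same]

theorem word_add (g : ι → G) (k l : ι → ℕ) : word g (k + l) = word g k * word g l := by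
  simp only [word, Pi.add_apply, pow_add, prod_mul_distrib]

theorem zero_mem_box {q : ι → ℕ} (hq : ∀ i, 0 < q i) (S : Finset ι) : (0 : ι → ℕ) ∈ box q S :=
  mem_box.mpr fun i => ⟨fun _ => hq i, fun _ => rfl⟩

theorem single_mem_box {q : ι → ℕ} (hq : ∀ i, 0 < q i) {S : Finset ι} {i : ι} (hi : i ∈ S) {n : ℕ} (hn : n < q i) :
    Pi.single i n ∈ box q S := mem_box.mpr fun j => by
  rcases eq_or_ne j i with rfl | hne
  · simp [hi, hn]
  · simp [Pi.single_eq_of_ne hne, hq j]

/-- The segments indexed by `S` factor `H`. -/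
structure Tiles (g : ι → G) (q : ι → ℕ) (S : Finset ι) (H : Subgroup G) : Prop where
  injOn : Set.InjOn (word g) (box q S : Set (ι → ℕ))
  mem_iff : ∀ x, x ∈ H ↔ ∃ k ∈ box q S, word g k = x

theorem sum_word_eq_prod {g : ι → G} {q : ι → ℕ} {S : Finset ι} (χ : G →* ℂˣ) :
    ∑ k ∈ box q S, (χ (word g k) : ℂ) = ∏ i ∈ S, ∑ n ∈ range (q i), (χ (g i) : ℂ) ^ n := by
  simp only [word, map_prod, map_pow, Units.coe_prod, Units.val_pow_eq_pow_val, box]
  rw [← prod_univ_sum, ← prod_subset (subset_univ S)]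
  · exact prod_congr rfl fun i hi => by rw [if_pos hi]
  · intro i _ hi
    rw [if_neg hi, sum_singleton, pow_zero]

variable [Finite G]

/-- A nontrivial character of a factored subgroup kills a segment. -/
theorem Tiles.exists_vanishing {g : ι → G} {q : ι → ℕ} {S : Finset ι} {H : Subgroup G} (h : Tiles g q S H)
    (hq : ∀ i, 2 ≤ q i) {χ : G →* ℂˣ} (hχ : ∃ x ∈ H, χ x ≠ 1) : ∃ i ∈ S, χ (g i) ^ q i = 1 ∧ χ (g i) ≠ 1 := by
  have : Fintype H := Fintype.ofFinite H
  have h0 : ∑ x : H, (χ x : ℂ) = 0 := by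
    refine sum_hom_units_eq_zero ((Units.coeHom ℂ).comp (χ.comp H.subtype)) fun h1 => ?_
    obtain ⟨x, hx, hne⟩ := hχ
    exact hne (Units.ext (by simpa using DFunLike.congr_fun h1 ⟨x, hx⟩))
  have heq : ∑ k ∈ box q S, (χ (word g k) : ℂ) = 0 := by
    rw [← h0]
    refine sum_bij (fun k hk => (⟨word g k, (h.mem_iff _).mpr ⟨k, hk, rfl⟩⟩ : H)) (fun _ _ => mem_univ _)
      (fun a ha b hb e => h.injOn ha hb (congrArg Subtype.val e)) (fun x _ => ?_) (fun _ _ => rfl)
    obtain ⟨k, hk, e⟩ := (h.mem_iff _).mp x.2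
    exact ⟨k, hk, Subtype.ext e⟩
  rw [sum_word_eq_prod, prod_eq_zero_iff] at heq
  obtain ⟨i, hi, hz⟩ := heq
  exact ⟨i, hi, (geom_eq_zero_iff (hq i)).mp hz⟩

/-- **Hajós's theorem for segments of prime length.** -/
theorem hajos_prime {g : ι → G} {p : ι → ℕ} (hp : ∀ i, (p i).Prime) {S : Finset ι} {H : Subgroup G}
    (hS : S.Nonempty) (h : Tiles g p S H) : ∃ i ∈ S, g i ^ p i = 1 := by
  induction S using Finset.strongInduction generalizing H with
  | _ S ih =>
  by_contra hnone
  push Not at hnone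
  obtain ⟨i₀, hi₀⟩ := hS
  set a : ι → G := fun i => if i = i₀ then g i₀ ^ p i₀ else g i with ha
  set r : ι → ℕ := fun i => if i = i₀ then 1 else p i with hr
  have hr' : ∀ i, r i = 1 ∨ (r i).Prime := fun i => by
    rw [hr]; dsimp only; split_ifs
    exacts [Or.inl rfl, Or.inr (hp i)]
  have hgH : ∀ i ∈ S, g i ∈ H := fun i hi => (h.mem_iff _).mpr
    ⟨_, single_mem_box (fun j => (hp j).pos) hi (hp i).one_lt, (word_single g i 1).trans (pow_one _)⟩
  have hcov : ∀ χ : G →* ℂˣ, ∃ i ∈ S, χ ∈ zeroSet (fun i => evChar (a i)) r i := fun χ => by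
    by_cases hb : χ (g i₀ ^ p i₀) = 1
    · refine ⟨i₀, hi₀, ?_⟩
      show χ (a i₀) ^ r i₀ = 1 ∧ (r i₀ = 1 ∨ _)
      simp [ha, hr, -map_pow, hb]
    · obtain ⟨i, hi, hz, hne⟩ := h.exists_vanishing (fun i => (hp i).two_le)
        ⟨g i₀ ^ p i₀, H.pow_mem (hgH i₀ hi₀) _, hb⟩
      have hii : i ≠ i₀ := fun e => hb (by rw [map_pow, ← e, hz])
      refine ⟨i, hi, ?_⟩
      show χ (a i) ^ r i = 1 ∧ (r i = 1 ∨ χ (a i) ≠ 1)
      simp [ha, hr, hii, hz, hne]
  obtain ⟨T, hTS, hTcov, hTirr⟩ := exists_irredundant (fun i => evChar (a i)) r (C := Set.univ) (S := S)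
    fun χ _ => hcov χ
  have hb := omega_closure_lt hr' (fun χ => hTcov χ trivial) (fun i hi => by
    obtain ⟨χ, -, hχ⟩ := hTirr i hi
    exact ⟨χ, hχ⟩)
  set M := Subgroup.closure (a '' (T : Set ι)) with hM
  set T' := T.erase i₀
  have hT'S : T' ⊂ S := (erase_subset_erase _ hTS).trans_ssubset (erase_ssubset hi₀)
  have hMH : M ≤ H := (Subgroup.closure_le H).mpr (by
    rintro _ ⟨i, hi, rfl⟩
    rw [ha]; dsimp only; split_ifs
    exacts [H.pow_mem (hgH i₀ hi₀) _, hgH i (hTS hi)])
  have hwordM : ∀ k ∈ box p T', word g k ∈ M := fun k hk => by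
    refine Subgroup.prod_mem _ fun i _ => ?_
    by_cases hi : i ∈ T'
    · refine M.pow_mem (Subgroup.subset_closure ⟨i, (mem_erase.mp hi).2, ?_⟩) _
      rw [ha]; dsimp only; rw [if_neg (mem_erase.mp hi).1]
    · rw [(mem_box.mp hk i).2 hi, pow_zero]
      exact M.one_mem
  set R := (box p (S \ T')).filter fun k => word g k ∈ M
  have hcard : Nat.card M = (box p T').card * R.card := by
    rw [← card_product, ← Nat.card_eq_finsetCard]
    have hsum : ∀ v ∈ box p T' ×ˢ R, v.1 + v.2 ∈ box p S := fun v hv => by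
      obtain ⟨h1, h2⟩ := mem_product.mp hv
      refine mem_box.mpr fun i => ?_
      have a1 := mem_box.mp h1 i
      have a2 := mem_box.mp (mem_filter.mp h2).1 i
      by_cases hi : i ∈ T'
      · rw [Pi.add_apply, a2.2 (fun hh => (mem_sdiff.mp hh).2 hi), add_zero]
        exact ⟨fun _ => a1.1 hi, fun hh => absurd (hT'S.subset hi) hh⟩
      · rw [Pi.add_apply, a1.2 hi, zero_add]
        exact ⟨fun hh => a2.1 (mem_sdiff.mpr ⟨hh, hi⟩), fun hh => a2.2 fun hh' => hh (mem_sdiff.mp hh').1⟩
    refine (Nat.card_congr (Equiv.ofBijective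
      (fun v : ↥(box p T' ×ˢ R) => (⟨word g (v.1.1 + v.1.2), ?_⟩ : M)) ⟨?_, ?_⟩)).symm
    · obtain ⟨h1, h2⟩ := mem_product.mp v.2
      rw [word_add]
      exact M.mul_mem (hwordM _ h1) (mem_filter.mp h2).2
    · intro v w e
      have e' := h.injOn (hsum _ v.2) (hsum _ w.2) (congrArg Subtype.val e)
      obtain ⟨v1, v2⟩ := mem_product.mp v.2
      obtain ⟨w1, w2⟩ := mem_product.mp w.2
      refine Subtype.ext (Prod.ext (funext fun i => ?_) (funext fun i => ?_)) <;>
        have := congrFun e' i <;> rw [Pi.add_apply, Pi.add_apply] at this <;>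
        by_cases hi : i ∈ T'
      all_goals
        first
        | rw [(mem_box.mp (mem_filter.mp v2).1 i).2 (fun hh => (mem_sdiff.mp hh).2 hi),
            (mem_box.mp (mem_filter.mp w2).1 i).2 (fun hh => (mem_sdiff.mp hh).2 hi)] at *
        | rw [(mem_box.mp v1 i).2 hi, (mem_box.mp w1 i).2 hi] at *
      all_goals omega
    · intro x
      obtain ⟨k, hk, hkx⟩ := (h.mem_iff _).mp (hMH x.2)
      set k1 : ι → ℕ := fun i => if i ∈ T' then k i else 0 with hk1
      set k2 : ι → ℕ := fun i => if i ∈ T' then 0 else k i with hk2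
      have hk12 : k1 + k2 = k := funext fun i => by by_cases hi : i ∈ T' <;> simp [hk1, hk2, hi]
      have m1 : k1 ∈ box p T' := mem_box.mpr fun i => by
        by_cases hi : i ∈ T'
        · simp only [hk1, hi, if_true]
          exact ⟨fun _ => (mem_box.mp hk i).1 (hT'S.subset hi), fun hh => absurd trivial hh⟩
        · simp [hk1, hi]
      have m2 : k2 ∈ box p (S \ T') := mem_box.mpr fun i => by
        by_cases hi : i ∈ T'
        · simp [hk2, hi, (hp i).pos]
        · simp only [hk2, hi, if_false]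
          exact ⟨fun hh => (mem_box.mp hk i).1 (mem_sdiff.mp hh).1,
            fun hh => (mem_box.mp hk i).2 fun hS => hh (mem_sdiff.mpr ⟨hS, hi⟩)⟩
      have hk2M : word g k2 ∈ M := by
        have e : word g k2 = (word g k1)⁻¹ * x := by rw [eq_inv_mul_iff_mul_eq, ← word_add, hk12, hkx]
        rw [e]
        exact M.mul_mem (M.inv_mem (hwordM _ m1)) x.2
      exact ⟨⟨(k1, k2), mem_product.mpr ⟨m1, mem_filter.mpr ⟨m2, hk2M⟩⟩⟩,
        Subtype.ext (by show word g (k1 + k2) = x; rw [hk12, hkx])⟩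
  have hR0 : R.card ≠ 0 := fun e => by
    have h0 : (0 : ι → ℕ) ∈ R := mem_filter.mpr ⟨zero_mem_box (fun i => (hp i).pos) _, by simp [word, M.one_mem]⟩
    rw [card_eq_zero.mp e] at h0
    exact notMem_empty _ h0
  have hΩ : ∀ U : Finset ι, Ω (∏ i ∈ U, p i) = U.card := fun U => by
    induction U using Finset.induction_on with
    | empty => simp
    | insert j U hj ihU =>
      rw [prod_insert hj, card_insert_of_notMem hj, ArithmeticFunction.cardFactors_mul (hp j).ne_zero
        (prod_ne_zero_iff.mpr fun i _ => (hp i).ne_zero), ihU, ArithmeticFunction.cardFactors_apply_prime (hp j),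
        add_comm]
  rw [hcard, card_box, ArithmeticFunction.cardFactors_mul (prod_ne_zero_iff.mpr fun i _ => (hp i).ne_zero) hR0,
    hΩ] at hb
  have hTcard : T.card ≤ T'.card + 1 := by
    have := pred_card_le_card_erase (s := T) (a := i₀)
    change T.card ≤ (T.erase i₀).card + 1
    omega
  have hR1 : R.card = 1 := (ArithmeticFunction.cardFactors_eq_zero_iff_eq_zero_or_one.mp (by omega)).resolve_left hR0
  rw [hR1, mul_one] at hcard
  have htiles : Tiles g p T' M := by
    have hinj : Set.InjOn (word g) (box p T' : Set (ι → ℕ)) := h.injOn.mono (fun k hk => mem_box.mpr fun i => by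
      have := mem_box.mp hk i
      by_cases hi : i ∈ T'
      · exact ⟨fun _ => this.1 hi, fun hh => absurd (hT'S.subset hi) hh⟩
      · exact ⟨fun _ => by rw [this.2 hi]; exact (hp i).pos, fun _ => this.2 hi⟩)
    refine ⟨hinj, fun x => ⟨fun hx => ?_, fun ⟨k, hk, e⟩ => e ▸ hwordM k hk⟩⟩
    have : Fintype M := Fintype.ofFinite M
    have himg : (box p T').image (word g) = (M : Set G).toFinset := by
      refine eq_of_subset_of_card_le (fun y hy => ?_) ?_
      · obtain ⟨k, hk, rfl⟩ := mem_image.mp hy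
        exact Set.mem_toFinset.mpr (hwordM k hk)
      · rw [card_image_of_injOn hinj, Set.toFinset_card, ← Nat.card_eq_fintype_card]
        exact hcard.le
    obtain ⟨k, hk, e⟩ := mem_image.mp (himg.symm ▸ Set.mem_toFinset.mpr hx : x ∈ (box p T').image (word g))
    exact ⟨k, hk, e⟩
  rcases T'.eq_empty_or_nonempty with hT' | hT'
  · obtain ⟨i, hi, -⟩ := hTcov 1 trivial
    have hii : i = i₀ := by_contra fun hne => notMem_empty i (hT' ▸ mem_erase.mpr ⟨hne, hi⟩)
    have hbM : g i₀ ^ p i₀ ∈ M := Subgroup.subset_closure ⟨i, hi, by rw [ha]; dsimp only; rw [if_pos hii]⟩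
    obtain ⟨k, hk, e⟩ := (htiles.mem_iff _).mp hbM
    rw [hT'] at hk
    refine hnone i₀ hi₀ (e ▸ ?_)
    exact prod_eq_one fun j _ => by rw [(mem_box.mp hk j).2 (notMem_empty j), pow_zero]
  · obtain ⟨i, hi, he⟩ := ih T' hT'S hT' htiles
    exact hnone i (hT'S.subset hi) he

end FA.Hajos
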