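import Fermat.Agent.Hajos.Theorem
import Mathlib.GroupTheory.QuotientGroup.Defs
import Mathlib.Data.Rat.Floor
import Mathlib.Data.Real.Basic
import Mathlib.GroupTheory.Finiteness

/-!
# Composite lengths and cube tilings

A segment of length `r s` is a segment of length `r` times one of length `s`, which gives Hajós's theorem in general.
For a lattice `L ⊆ ℤ^n` whose translates of `[0, N)^n` tile, the segments of the unit vectors factor `ℤ^n / L`, so
some `N e_i` lies in `L`; this is Minkowski's conjecture for rational lattices.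
-/

set_option autoImplicit false
set_option linter.unusedSectionVars false

noncomputable section

open Finset
open scoped Classical

namespace FA.Hajos

universe v

variable {G : Type*} [CommGroup G] [Finite G]

theorem tiles_top {ι : Type*} [Fintype ι] {g : ι → G} {q : ι → ℕ}
    (hinj : Set.InjOn (word g) (box q univ : Set (ι → ℕ))) (hcard : ∏ i, q i = Nat.card G) :
    Tiles g q univ ⊤ := by
  have : Fintype G := Fintype.ofFinite G
  refine ⟨hinj, fun x => ⟨fun _ => ?_, fun _ => Subgroup.mem_top x⟩⟩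
  have himg : (box q univ).image (word g) = univ := eq_univ_of_card _ (by
    rw [card_image_of_injOn hinj, card_box, hcard, Nat.card_eq_fintype_card])
  obtain ⟨k, hk, e⟩ := mem_image.mp (himg.symm ▸ mem_univ x : x ∈ (box q univ).image (word g))
  exact ⟨k, hk, e⟩

/-- **Hajós's theorem.** -/
theorem hajos_general (ι : Type v) [Fintype ι] [Nonempty ι] (g : ι → G) (q : ι → ℕ) (hq : ∀ i, 2 ≤ q i)
    (hinj : Set.InjOn (word g) (box q univ : Set (ι → ℕ))) (hcard : ∏ i, q i = Nat.card G) :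
    ∃ i, g i ^ q i = 1 := by
  induction hn : ∑ i, (q i - 1) using Nat.strong_induction_on generalizing ι with
  | _ n ih =>
  subst hn
  by_cases hp : ∀ i, (q i).Prime
  · obtain ⟨i, -, hi⟩ := hajos_prime hp univ_nonempty (tiles_top hinj hcard)
    exact ⟨i, hi⟩
  push Not at hp
  obtain ⟨i₁, hi₁⟩ := hp
  obtain ⟨r, hr, hr1, hrlt⟩ := Nat.exists_dvd_of_not_prime2 (hq i₁) hi₁
  obtain ⟨s, hs⟩ := hr
  have hs1 : 2 ≤ s := by
    by_contra hcon
    rcases (show s = 0 ∨ s = 1 by omega) with rfl | rfl <;> omega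
  set g' : Option ι → G := fun o => o.elim (g i₁ ^ r) g with hg'
  set q' : Option ι → ℕ := fun o => o.elim s (Function.update q i₁ r) with hq'
  have hprod : ∏ o, q' o = Nat.card G := by
    rw [Fintype.prod_option, ← hcard]
    show s * ∏ i, Function.update q i₁ r i = _
    rw [← mul_prod_erase univ q (mem_univ i₁), ← mul_prod_erase univ _ (mem_univ i₁), Function.update_self,
      prod_congr rfl fun j hj => Function.update_of_ne (mem_erase.mp hj).1 r q, hs]
    ring
  set φ : (Option ι → ℕ) → ι → ℕ := fun k => Function.update (fun i => k (some i)) i₁ (k (some i₁) + r * k none)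
    with hφ
  have hword : ∀ k, word g' k = word g (φ k) := fun k => by
    rw [word, word, Fintype.prod_option]
    show (g i₁ ^ r) ^ k none * ∏ i, g i ^ k (some i) = _
    rw [← mul_prod_erase univ (fun i => g i ^ φ k i) (mem_univ i₁),
      ← mul_prod_erase univ (fun i => g i ^ k (some i)) (mem_univ i₁)]
    simp only [hφ, Function.update_self]
    rw [prod_congr rfl fun j hj => show g j ^ Function.update (fun i => k (some i)) i₁ (k (some i₁) + r * k none) j =
      g j ^ k (some j) by rw [Function.update_of_ne (mem_erase.mp hj).1], pow_add, pow_mul]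
    ac_rfl
  have hbox : ∀ k ∈ box q' univ, φ k ∈ box q univ := fun k hk => mem_box.mpr fun i => by
    refine ⟨fun _ => ?_, fun hh => absurd (mem_univ i) hh⟩
    rcases eq_or_ne i i₁ with rfl | hne
    · have h1 : k (some i) < Function.update q i r i := (mem_box.mp hk (some i)).1 (mem_univ _)
      have h2 : k none < s := (mem_box.mp hk none).1 (mem_univ _)
      rw [Function.update_self] at h1
      simp only [hφ, Function.update_self, hs]
      calc k (some i) + r * k none < r + r * k none := by omega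
        _ = r * (k none + 1) := by ring
        _ ≤ r * s := Nat.mul_le_mul_left r h2
    · have h1 : k (some i) < Function.update q i₁ r i := (mem_box.mp hk (some i)).1 (mem_univ _)
      rw [Function.update_of_ne hne] at h1
      simp only [hφ, Function.update_of_ne hne]
      exact h1
  have hinj' : Set.InjOn (word g') (box q' univ : Set (Option ι → ℕ)) := fun k hk l hl e => by
    rw [hword, hword] at e
    have e' := hinj (hbox k hk) (hbox l hl) e
    have hk1 : k (some i₁) < r := by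
      have := (mem_box.mp hk (some i₁)).1 (mem_univ _)
      simpa [hq'] using this
    have hl1 : l (some i₁) < r := by
      have := (mem_box.mp hl (some i₁)).1 (mem_univ _)
      simpa [hq'] using this
    have h1 := congrFun e' i₁
    simp only [hφ, Function.update_self] at h1
    have hmod : k (some i₁) = l (some i₁) := by
      have h2 := congrArg (· % r) h1
      simpa [Nat.add_mul_mod_self_left, Nat.mod_eq_of_lt hk1, Nat.mod_eq_of_lt hl1] using h2
    funext o
    rcases o with - | i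
    · rw [hmod] at h1
      exact Nat.eq_of_mul_eq_mul_left (show 0 < r by omega) (by omega)
    · rcases eq_or_ne i i₁ with rfl | hne
      · exact hmod
      · have := congrFun e' i
        simpa [hφ, Function.update_of_ne hne] using this
  have hmeas : ∑ o, (q' o - 1) < ∑ i, (q i - 1) := by
    rw [Fintype.sum_option]
    show s - 1 + ∑ i, (Function.update q i₁ r i - 1) < _
    rw [← add_sum_erase univ (fun i => q i - 1) (mem_univ i₁), ← add_sum_erase univ _ (mem_univ i₁),
      Function.update_self, sum_congr rfl fun j hj =>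
        congrArg (· - 1) (Function.update_of_ne (mem_erase.mp hj).1 r q), hs, ← add_assoc]
    refine Nat.add_lt_add_right ?_ _
    obtain ⟨r', rfl⟩ : ∃ r', r = r' + 2 := ⟨r - 2, by omega⟩
    obtain ⟨s', rfl⟩ : ∃ s', s = s' + 2 := ⟨s - 2, by omega⟩
    rw [show (r' + 2) * (s' + 2) = r' * s' + 2 * r' + 2 * s' + 4 by ring]
    omega
  obtain ⟨o, ho⟩ := ih _ hmeas (Option ι) g' q' (fun o => by
    rcases o with - | i
    · exact hs1
    · rcases eq_or_ne i i₁ with rfl | hne
      · simpa [hq'] using hr1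
      · simpa [hq', Function.update_of_ne hne] using hq i) hinj' hprod rfl
  rcases o with - | i
  · exact ⟨i₁, by rw [hs, pow_mul]; exact ho⟩
  rcases eq_or_ne i i₁ with rfl | hne
  · exfalso
    have e : g i ^ r = 1 := by simpa [hg', hq'] using ho
    have h0 : ∀ j, 0 < q j := fun j => lt_of_lt_of_le two_pos (hq j)
    have e' := hinj (single_mem_box h0 (mem_univ i) hrlt) (zero_mem_box h0 univ) (by
      rw [word_single, e]; simp [word])
    have := congrFun e' i
    simp at this
    omega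
  · exact ⟨i, by simpa [hg', hq', Function.update_of_ne hne] using ho⟩

/-- A segment with `g ^ q = 1` is a subgroup. -/
theorem segment_eq_zpowers {g : G} {q : ℕ} (hq : 0 < q) (h : g ^ q = 1) :
    {x : G | ∃ n < q, g ^ n = x} = (Subgroup.zpowers g : Set G) := by
  ext x
  refine ⟨fun ⟨n, _, e⟩ => e ▸ Subgroup.npow_mem_zpowers g n, fun hx => ?_⟩
  obtain ⟨n, rfl⟩ := Submonoid.mem_powers_iff _ _ |>.mp (mem_powers_iff_mem_zpowers.mpr hx)
  exact ⟨n % q, Nat.mod_lt _ hq, (pow_eq_pow_mod n h).symm⟩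

/-- **Cube tilings by integer lattices.** -/
theorem exists_axis_mem {ι : Type*} [Fintype ι] [DecidableEq ι] [Nonempty ι] (L : AddSubgroup (ι → ℤ)) {N : ℕ}
    (hN : 0 < N)
    (h : ∀ x : ι → ℤ, ∃! w : ι → ℤ, (∀ i, 0 ≤ w i ∧ w i < N) ∧ x - w ∈ L) : ∃ i, Pi.single i (N : ℤ) ∈ L := by
  have hcls : ∀ w x : ι → ℤ, (w : (ι → ℤ) ⧸ L) = x ↔ x - w ∈ L := fun w x => by
    rw [QuotientAddGroup.eq, neg_add_eq_sub]
  set f : (ι → Fin N) → Multiplicative ((ι → ℤ) ⧸ L) := fun k =>
    Multiplicative.ofAdd ((fun i => ((k i : ℕ) : ℤ)) : ι → ℤ)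
  have hf : Function.Bijective f := by
    refine ⟨fun k l e => ?_, fun y => ?_⟩
    · obtain ⟨w, -, huniq⟩ := h fun i => ((k i : ℕ) : ℤ)
      have e1 := huniq (fun i => ((k i : ℕ) : ℤ))
        ⟨fun i => ⟨Int.natCast_nonneg _, Int.ofNat_lt.mpr (k i).2⟩, by rw [sub_self]; exact L.zero_mem⟩
      have e2 := huniq (fun i => ((l i : ℕ) : ℤ))
        ⟨fun i => ⟨Int.natCast_nonneg _, Int.ofNat_lt.mpr (l i).2⟩,
          (hcls _ _).mp (Multiplicative.ofAdd.injective e).symm⟩
      exact funext fun i => Fin.ext (by exact_mod_cast congrFun (e1.trans e2.symm) i)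
    · obtain ⟨x, hx⟩ := QuotientAddGroup.mk_surjective (Multiplicative.toAdd y)
      obtain ⟨w, ⟨hw, hmem⟩, -⟩ := h x
      refine ⟨fun i => ⟨(w i).toNat, by have := hw i; omega⟩, ?_⟩
      refine Multiplicative.toAdd.injective ?_
      show ((fun i => ((w i).toNat : ℤ)) : (ι → ℤ) ⧸ L) = Multiplicative.toAdd y
      rw [← hx, hcls, show (fun i => ((w i).toNat : ℤ)) = w from funext fun i => Int.toNat_of_nonneg (hw i).1]
      exact hmem
  have : Finite (Multiplicative ((ι → ℤ) ⧸ L)) := Finite.of_surjective f hf.2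
  rcases Nat.lt_or_ge N 2 with hlt | hge
  · obtain rfl : N = 1 := by omega
    obtain ⟨i⟩ := ‹Nonempty ι›
    obtain ⟨w, ⟨hw, hmem⟩, -⟩ := h (Pi.single i ((1 : ℕ) : ℤ))
    have hw0 : w = 0 := funext fun j => by have := hw j; rw [Pi.zero_apply]; omega
    exact ⟨i, by simpa [hw0] using hmem⟩
  set g : ι → Multiplicative ((ι → ℤ) ⧸ L) := fun i => Multiplicative.ofAdd ((Pi.single i 1 : ι → ℤ) : (ι → ℤ) ⧸ L)
  have hw : ∀ k : ι → ℕ, word g k = Multiplicative.ofAdd (((fun i => (k i : ℤ)) : ι → ℤ) : (ι → ℤ) ⧸ L) := fun k => by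
    refine Multiplicative.toAdd.injective ?_
    rw [word, toAdd_prod, toAdd_ofAdd]
    show ∑ i, k i • ((Pi.single i 1 : ι → ℤ) : (ι → ℤ) ⧸ L) = _
    rw [← univ_sum_single (fun i => (k i : ℤ))]
    show _ = QuotientAddGroup.mk' L _
    rw [map_sum]
    refine sum_congr rfl fun i _ => ?_
    rw [← QuotientAddGroup.mk'_apply, ← map_nsmul]
    congr 1
    rw [← Pi.single_smul, nsmul_eq_mul, mul_one]
  have hinj : Set.InjOn (word g) ((box (fun _ : ι => N) univ : Finset (ι → ℕ)) : Set (ι → ℕ)) := fun k hk l hl e => by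
    have hk' : ∀ i, k i < N := fun i => (mem_box.mp hk i).1 (mem_univ i)
    have hl' : ∀ i, l i < N := fun i => (mem_box.mp hl i).1 (mem_univ i)
    rw [hw, hw] at e
    exact funext fun i => congrArg Fin.val (congrFun (hf.1 (a₁ := fun i => ⟨k i, hk' i⟩)
      (a₂ := fun i => ⟨l i, hl' i⟩) e) i)
  have hcard : ∏ _i : ι, N = Nat.card (Multiplicative ((ι → ℤ) ⧸ L)) := by
    rw [← Nat.card_eq_of_bijective f hf, Nat.card_pi]
    simp
  obtain ⟨i, hi⟩ := hajos_general ι g (fun _ => N) (fun _ => hge) hinj hcard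
  refine ⟨i, ?_⟩
  rw [← word_single, hw] at hi
  have hi' := congrArg Multiplicative.toAdd hi
  rw [toAdd_ofAdd, toAdd_one, QuotientAddGroup.eq_zero_iff] at hi'
  convert hi' using 1
  funext j
  rcases eq_or_ne j i with rfl | hne <;> simp [Pi.single_eq_of_ne, *]

/-- A finitely generated group of rational vectors has a common denominator. -/
theorem exists_denominator {ι : Type*} [Fintype ι] {L : AddSubgroup (ι → ℚ)} (hfg : L.FG) :
    ∃ N : ℕ, 0 < N ∧ ∀ v ∈ L, ∀ i, ∃ z : ℤ, (N : ℚ) * v i = z := by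
  obtain ⟨S, rfl⟩ := hfg
  refine ⟨∏ v ∈ S, ∏ i, (v i).den, prod_pos fun v _ => prod_pos fun i _ => (v i).den_pos, fun v hv i => ?_⟩
  induction hv using AddSubgroup.closure_induction with
  | mem w hw =>
    obtain ⟨c, hc⟩ : (w i).den ∣ ∏ v ∈ S, ∏ i, (v i).den :=
      (dvd_prod_of_mem (fun i => (w i).den) (mem_univ i)).trans (dvd_prod_of_mem (fun v => ∏ i, (v i).den) hw)
    refine ⟨c * (w i).num, ?_⟩
    rw [hc]
    push_cast
    linear_combination (c : ℚ) * Rat.mul_den_eq_num (w i)
  | zero => exact ⟨0, by simp⟩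
  | add a b _ _ ha hb =>
    obtain ⟨x, hx⟩ := ha
    obtain ⟨y, hy⟩ := hb
    exact ⟨x + y, by rw [Pi.add_apply, mul_add, hx, hy, Int.cast_add]⟩
  | neg a _ ha =>
    obtain ⟨x, hx⟩ := ha
    exact ⟨-x, by rw [Pi.neg_apply, mul_neg, hx, Int.cast_neg]⟩

/-- **Minkowski's conjecture for rational lattices.** -/
theorem minkowski {ι : Type*} [Fintype ι] [DecidableEq ι] [Nonempty ι] (L : AddSubgroup (ι → ℚ)) (hfg : L.FG)
    (h : ∀ x : ι → ℝ, ∃! v : ι → ℚ, v ∈ L ∧ ∀ i, (v i : ℝ) ≤ x i ∧ x i < v i + 1) :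
    ∃ i, Pi.single i (1 : ℚ) ∈ L := by
  obtain ⟨N, hN, hden⟩ := exists_denominator hfg
  have hNQ : (N : ℚ) ≠ 0 := by exact_mod_cast hN.ne'
  have hNR : (0 : ℝ) < N := by exact_mod_cast hN
  set σ : (ι → ℤ) →+ (ι → ℚ) :=
    { toFun := fun v i => (v i : ℚ) / N
      map_zero' := by funext i; simp
      map_add' := fun a b => by funext i; simp [add_div] } with hσ
  have key : ∀ (x w : ι → ℤ), ((∀ i, 0 ≤ w i ∧ w i < N) ∧ x - w ∈ L.comap σ) ↔
      (σ (x - w) ∈ L ∧ ∀ i, ((σ (x - w) i : ℚ) : ℝ) ≤ (x i : ℝ) / N ∧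
        (x i : ℝ) / N < ((σ (x - w) i : ℚ) : ℝ) + 1) := fun x w => by
    rw [AddSubgroup.mem_comap, and_comm]
    refine and_congr_right fun _ => forall_congr' fun i => ?_
    show _ ↔ ((((x i - w i : ℤ) : ℚ) / N : ℚ) : ℝ) ≤ _ ∧ _ < ((((x i - w i : ℤ) : ℚ) / N : ℚ) : ℝ) + 1
    push_cast
    rw [sub_div]
    have h0 : 0 ≤ (w i : ℝ) / N ↔ 0 ≤ w i := by rw [le_div_iff₀ hNR, zero_mul, Int.cast_nonneg_iff]
    have h1 : (w i : ℝ) / N < 1 ↔ w i < N := by
      rw [div_lt_one hNR]
      exact_mod_cast Iff.rfl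
    rw [← h0, ← h1]
    constructor <;> intro hh <;> exact ⟨by linarith [hh.1], by linarith [hh.2]⟩
  have hbox : ∀ x : ι → ℤ, ∃! w : ι → ℤ, (∀ i, 0 ≤ w i ∧ w i < N) ∧ x - w ∈ L.comap σ := fun x => by
    obtain ⟨v, ⟨hvL, hv⟩, huniq⟩ := h fun i => (x i : ℝ) / N
    choose z hz using hden v hvL
    have hσz : σ (x - (x - z)) = v := funext fun i => by
      rw [sub_sub_cancel]
      show ((z i : ℤ) : ℚ) / N = v i
      rw [← hz i, mul_div_cancel_left₀ _ hNQ]
    refine ⟨x - z, (key x _).mpr ⟨hσz ▸ hvL, hσz ▸ hv⟩, fun w hw => ?_⟩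
    obtain ⟨h1, h2⟩ := (key x w).mp hw
    have e := (huniq (σ (x - w)) ⟨h1, h2⟩).trans hσz.symm
    refine funext fun i => ?_
    have e' : (((x i - w i : ℤ) : ℚ) / N) = ((x i - (x i - z i) : ℤ) : ℚ) / N := congrFun e i
    rw [div_left_inj' hNQ, Int.cast_inj] at e'
    show w i = x i - z i
    omega
  obtain ⟨i, hi⟩ := exists_axis_mem (L.comap σ) hN hbox
  refine ⟨i, ?_⟩
  convert AddSubgroup.mem_comap.mp hi using 1
  funext j
  rcases eq_or_ne j i with rfl | hne
  · simp [hσ, hNQ]
  · simp [hσ, Pi.single_eq_of_ne hne]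

end FA.Hajos
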